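import Fermat.Agent.LindReichardt.Global
import Fermat.Agent.MordellCurve.TorsionQuartic
import Fermat.Agent.Root.SummaryTwoIsogenyRank

/-!
# The descent on `y² = x³ + p x` for `2` no fourth power modulo `p ≡ 1 (mod 8)`

The classes on the curve lie in `{1, p}`. On `y² = x³ - 4 p x` translation by `(0, 0)` makes the
exponent of `p` even, and the classes `-1`, `± 2` have no point. So the rank is zero.
-/

set_option autoImplicit false
set_option linter.style.haveILetI false

noncomputable section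

open WeierstrassCurve
open FA.CM.Seven (twoCurve twoCurve_equation)
open FA.TwoDescent

namespace FA.LindReichardt

variable {p : ℕ} [hp : Fact p.Prime]

theorem zmod_two_cases : ∀ u : ZMod 2, u = 0 ∨ u = 1 := by decide

/-- The bad primes on the isogenous curve. -/
abbrev dualPrimes (p : ℕ) : Finset ℕ := {2, p}

theorem prime_of_mem_dualPrimes : ∀ q ∈ dualPrimes p, q.Prime := fun q hq => by
  rcases Finset.mem_insert.1 hq with rfl | hq
  · exact Nat.prime_two
  · rw [Finset.mem_singleton.1 hq]; exact hp.out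

omit hp in
theorem supported_mul {S : Finset ℕ} {x y : ℚ} (hx : x ≠ 0) (hy : y ≠ 0) (h : Supported S x)
    (h' : Supported S y) : Supported S (x * y) := fun q hq hqS => by
  have := Fact.mk hq
  rw [padicValRat.mul hx hy]
  exact (h q hq hqS).add (h' q hq hqS)

omit hp in
theorem supported_mono {S T : Finset ℕ} {x : ℚ} (hST : S ⊆ T) (h : Supported S x) :
    Supported T x := fun q hq hqT => h q hq fun hqS => hqT (hST hqS)

theorem primeFactors_dual :
    (-4 * (p : ℤ)).natAbs.primeFactors ⊆ dualPrimes p := fun q hq => by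
  obtain ⟨hqp, hqd, -⟩ := Nat.mem_primeFactors.1 hq
  rw [Int.natAbs_mul, Int.natAbs_natCast, show (-4 : ℤ).natAbs = 2 * 2 from rfl] at hqd
  simp only [dualPrimes, Finset.mem_insert, Finset.mem_singleton]
  rcases hqp.dvd_mul.1 hqd with h | h
  · rcases hqp.dvd_mul.1 h with h | h <;>
      exact Or.inl ((Nat.prime_dvd_prime_iff_eq hqp Nat.prime_two).1 h)
  · exact Or.inr ((Nat.prime_dvd_prime_iff_eq hqp hp.out).1 h)

omit hp in
/-- The coordinates of a point with abscissa `d s²`, in integers. -/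
theorem exists_quartic {d : ℤ} {s y : ℚ} (hs : s ≠ 0)
    (e : y ^ 2 = ((d : ℚ) * s ^ 2) ^ 3 - 4 * p * ((d : ℚ) * s ^ 2)) :
    ∃ z w r : ℤ, IsCoprime z r ∧ w ^ 2 = d ^ 3 * z ^ 4 - 4 * p * d * r ^ 4 := by
  have hden : ((s.den : ℤ) : ℚ) ≠ 0 := Int.cast_ne_zero.2 (Int.natCast_ne_zero.2 s.den_nz)
  have hnum : (s.num : ℚ) = s * ((s.den : ℤ) : ℚ) := by exact_mod_cast (Rat.mul_den_eq_num s).symm
  obtain ⟨w, hw⟩ := FA.CongruentNumber.exists_int_of_sq
    (w := y / s * ((s.den : ℤ) : ℚ) ^ 2)
    (k := d ^ 3 * s.num ^ 4 - 4 * p * d * (s.den : ℤ) ^ 4) (by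
      push_cast
      rw [hnum]
      field_simp
      push_cast
      linear_combination ((s.den : ℚ)) ^ 4 * e)
  refine ⟨s.num, w, s.den, ?_, ?_⟩
  · rw [Int.isCoprime_iff_gcd_eq_one, Int.gcd, Int.natAbs_natCast]
    exact s.reduced
  · have : (w : ℚ) ^ 2 =
        (d : ℚ) ^ 3 * (s.num : ℚ) ^ 4 - 4 * p * d * ((s.den : ℤ) : ℚ) ^ 4 := by
      rw [← hw, hnum]
      field_simp
      linear_combination e
    exact_mod_cast this

/-- **No point in the classes `-1`, `± 2`.** -/
theorem no_point (h8 : p % 8 = 1) (h2 : ¬ ∃ x : ZMod p, x ^ 4 = 2) {d : ℤ}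
    (hd : d = -1 ∨ d = 2 ∨ d = -2) {s y : ℚ} (hs : s ≠ 0) :
    y ^ 2 ≠ ((d : ℚ) * s ^ 2) ^ 3 - 4 * p * ((d : ℚ) * s ^ 2) := fun e => by
  obtain ⟨z, w, r, hco, h⟩ := exists_quartic hs e
  rcases hd with rfl | rfl | rfl
  · exact sq_add_ne h8 h2 hco (w := w) (by linear_combination h)
  all_goals
    have h4 : (4 : ℤ) ∣ w := by
      have key : ∀ a : ZMod 8, a ^ 2 = 0 → 2 * a = 0 := by decide
      have := congrArg (Int.cast : ℤ → ZMod 8) h
      push_cast at this
      have h' : ((8 : ℕ) : ℤ) ∣ 2 * w := (ZMod.intCast_zmod_eq_zero_iff_dvd _ 8).1 (by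
        push_cast
        refine key _ (this.trans ?_)
        generalize (z : ZMod 8) ^ 4 = u
        generalize (r : ZMod 8) ^ 4 = v
        generalize (p : ZMod 8) = t
        revert u v t
        decide)
      omega
    obtain ⟨v, rfl⟩ := h4
  · exact two_mul_sq_ne h8 h2 (Or.inl rfl) hco (w := v) (by linarith)
  · exact two_mul_sq_ne h8 h2 (Or.inr rfl) hco (w := v) (by linarith)

theorem padicValRat_two_prime (h8 : p % 8 = 1) :
    padicValRat p (2 : ℚ) = 0 ∧ padicValRat 2 (p : ℚ) = 0 := by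
  have h2 : p ≠ 2 := by omega
  haveI := Fact.mk Nat.prime_two
  rw [show (2 : ℚ) = ((2 : ℕ) : ℚ) by norm_num, padicValRat.of_nat, padicValRat.of_nat,
    padicValNat_primes h2, padicValNat_primes h2.symm]
  simp

/-- A point whose exponent at `p` is even has trivial class. -/
theorem classOf_eq_zero (h8 : p % 8 = 1) (h2 : ¬ ∃ x : ZMod p, x ^ 4 = 2) {x y : ℚ} (hx : x ≠ 0)
    (e : y ^ 2 = x ^ 3 - 4 * p * x)
    (hp0 : classOf (dualPrimes p) x (some ⟨p, by simp⟩) = 0) :
    classOf (dualPrimes p) x = 0 := by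
  haveI := Fact.mk Nat.prime_two
  have hS := prime_of_mem_dualPrimes (p := p)
  have hsupp : Supported (dualPrimes p) x := supported_mono primeFactors_dual
    (supported_of_equation (A := 0) (B := -4 * (p : ℤ)) (y := y) (by simp [hp.out.ne_zero]) hx
      (by push_cast; linear_combination e))
  obtain ⟨v2, hv⟩ := padicValRat_two_prime (p := p) h8
  have hv2 : padicValRat 2 (2 : ℚ) = 1 := by simpa using padicValRat.self (p := 2) one_lt_two
  -- the representative
  suffices h : ∀ d : ℤ, d = 1 ∨ d = -1 ∨ d = 2 ∨ d = -2 →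
      classOf (dualPrimes p) x = classOf (dualPrimes p) (d : ℚ) → d = 1 by
    by_contra hne
    have hd : ∃ d : ℤ, (d = 1 ∨ d = -1 ∨ d = 2 ∨ d = -2) ∧
        classOf (dualPrimes p) x = classOf (dualPrimes p) (d : ℚ) := by
      have hget : ∀ d : ℤ, (d = 1 ∨ d = -1 ∨ d = 2 ∨ d = -2) →
          classOf (dualPrimes p) x none = (if (d : ℚ) < 0 then 1 else 0) →
          classOf (dualPrimes p) x (some ⟨2, by simp⟩) = (padicValRat 2 (d : ℚ) : ZMod 2) →
          classOf (dualPrimes p) x = classOf (dualPrimes p) (d : ℚ) := fun d hd h0 h1 => by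
        funext i
        rcases i with _ | ⟨q, hq⟩
        · exact h0
        rcases Finset.mem_insert.1 hq with rfl | hq'
        · exact h1
        obtain rfl := Finset.mem_singleton.1 hq'
        rw [hp0]
        show (0 : ZMod 2) = (padicValRat q (d : ℚ) : ZMod 2)
        rcases hd with rfl | rfl | rfl | rfl <;>
          simp [v2, padicValRat.neg]
      rcases zmod_two_cases (classOf (dualPrimes p) x none) with h0 | h0 <;>
        rcases zmod_two_cases (classOf (dualPrimes p) x (some ⟨2, by simp⟩)) with h1 | h1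
      · exact ⟨1, by simp, hget 1 (by simp) (by simp [h0]) (by simp [h1])⟩
      · exact ⟨2, by simp, hget 2 (by simp) (by rw [h0]; norm_num)
          (by rw [h1]; norm_num [hv2])⟩
      · exact ⟨-1, by simp, hget (-1) (by simp) (by simp [h0]) (by simp [h1])⟩
      · exact ⟨-2, by simp, hget (-2) (by simp) (by rw [h0]; norm_num)
          (by rw [h1]; norm_num [padicValRat.neg, hv2])⟩
    obtain ⟨d, hd, hcl⟩ := hd
    obtain rfl := h d hd hcl
    exact hne (hcl.trans (by
      funext i
      rcases i with _ | q <;> simp [classOf]))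
  intro d hd hcl
  by_contra h1
  have hd' : d = -1 ∨ d = 2 ∨ d = -2 := hd.resolve_left h1
  have hd0 : (d : ℚ) ≠ 0 := Int.cast_ne_zero.2 (by rcases hd' with rfl | rfl | rfl <;> norm_num)
  have hsd : Supported (dualPrimes p) (d : ℚ) := by
    refine supported_mono (fun q hq => ?_) (supported_intCast (by exact_mod_cast hd0))
    obtain ⟨hqp, hqd, -⟩ := Nat.mem_primeFactors.1 hq
    rcases hd' with rfl | rfl | rfl
    · exact absurd hqd hqp.not_dvd_one
    all_goals exact Finset.mem_insert.2 (Or.inl ((Nat.prime_dvd_prime_iff_eq hqp Nat.prime_two).1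
      (by simpa using hqd)))
  obtain ⟨s, hs⟩ := isSquare_of_classOf (mul_ne_zero hx hd0) (supported_mul hx hd0 hsupp hsd)
    (by rw [classOf_mul hS hx hd0, hcl, class_add_self])
  have hs0 : s ≠ 0 := fun h0 => mul_ne_zero hx hd0 (by rw [hs, h0, mul_zero])
  have hxe : x = (d : ℚ) * (s / d) ^ 2 := by field_simp; linear_combination hs
  exact no_point h8 h2 hd' (div_ne_zero hs0 hd0) (by rw [← hxe]; exact e)

/-- The classes on the isogenous curve are those of `1` and `-4 p`. -/
theorem classOf_dual (h8 : p % 8 = 1) (h2 : ¬ ∃ x : ZMod p, x ^ 4 = 2) {x y : ℚ} (hx : x ≠ 0)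
    (e : y ^ 2 = x ^ 3 - 4 * p * x) :
    classOf (dualPrimes p) x = 0 ∨
      classOf (dualPrimes p) x = classOf (dualPrimes p) (-4 * (p : ℚ)) := by
  rcases zmod_two_cases (classOf (dualPrimes p) x (some ⟨p, by simp⟩)) with h | h
  · exact Or.inl (classOf_eq_zero h8 h2 hx e h)
  right
  have hS := prime_of_mem_dualPrimes (p := p)
  have hp0 : (p : ℚ) ≠ 0 := Nat.cast_ne_zero.2 hp.out.ne_zero
  have hc0 : (-4 * (p : ℚ)) ≠ 0 := mul_ne_zero (by norm_num) hp0
  have hx' : -4 * (p : ℚ) / x ≠ 0 := div_ne_zero hc0 hx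
  have hcl : classOf (dualPrimes p) (-4 * (p : ℚ)) =
      classOf (dualPrimes p) x + classOf (dualPrimes p) (-4 * (p : ℚ) / x) := by
    rw [← classOf_mul hS hx hx']
    congr 1
    field_simp
  have hpc : classOf (dualPrimes p) (-4 * (p : ℚ)) (some ⟨p, by simp⟩) = 1 := by
    show (padicValRat p (-4 * (p : ℚ)) : ZMod 2) = 1
    rw [padicValRat.mul (by norm_num) hp0, padicValRat.self hp.out.one_lt, padicValRat.neg,
      show (4 : ℚ) = 2 ^ 2 by norm_num, padicValRat.pow, (padicValRat_two_prime h8).1]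
    simp
  have h0 := classOf_eq_zero h8 h2 hx' (y := 4 * p * y / x ^ 2)
    (by field_simp; linear_combination e) (by
      have := congrFun hcl (some ⟨p, by simp⟩)
      rw [Pi.add_apply, hpc, h] at this
      linear_combination -this)
  rw [hcl, h0, add_zero]

/-- A subgroup of order at most two. -/
theorem card_zmultiples_le {S : Finset ℕ} (c : Classes S) :
    Nat.card (AddSubgroup.zmultiples c) ≤ 2 := by
  rw [Nat.card_zmultiples]
  exact addOrderOf_le_of_nsmul_eq_zero two_pos (by rw [two_nsmul, class_add_self])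

/-- **Rank zero.** -/
theorem finrank_eq_zero (h8 : p % 8 = 1) (h2 : ¬ ∃ x : ZMod p, x ^ 4 = 2) :
    Module.finrank ℤ (twoCurve 0 (p : ℚ)).toAffine.Point = 0 := by
  have hp0 : (p : ℚ) ≠ 0 := Nat.cast_ne_zero.2 hp.out.ne_zero
  have : (twoCurve 0 (p : ℚ)).IsElliptic := ⟨isUnit_iff_ne_zero.mpr (by
    simp [Δ, b₂, b₄, b₆, b₈, hp0])⟩
  have : (twoCurve (-2 * (0 : ℚ)) (0 ^ 2 - 4 * (p : ℚ))).IsElliptic :=
    ⟨isUnit_iff_ne_zero.mpr (by simp [Δ, b₂, b₄, b₆, b₈, hp0])⟩
  have hS : ∀ q ∈ ({p} : Finset ℕ), q.Prime := fun q hq => by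
    rw [Finset.mem_singleton.1 hq]; exact hp.out
  have hpf : (p : ℤ).natAbs.primeFactors = {p} := by
    rw [Int.natAbs_natCast, hp.out.primeFactors]
  have hdual : (0 : ℚ) ^ 2 - 4 * p = ((-4 * (p : ℤ) : ℤ) : ℚ) := by push_cast; ring
  have hbound := two_pow_rank_le (a := 0) (b := (p : ℚ)) hS (prime_of_mem_dualPrimes (p := p))
    (by
      have := supported_intCast (B := (p : ℤ)) (by exact_mod_cast hp.out.ne_zero)
      rwa [hpf, Int.cast_natCast] at this)
    (fun x y hx e => hpf ▸ supported_of_equation (A := 0) (y := y) (B := (p : ℤ))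
      (by exact_mod_cast hp.out.ne_zero) hx (by push_cast; exact e))
    (supported_mono primeFactors_dual (hdual ▸ supported_intCast (by
      simp [hp.out.ne_zero])))
    (fun x y hx e => supported_mono primeFactors_dual (supported_of_equation (A := 0) (y := y)
      (B := -4 * (p : ℤ)) (by simp [hp.out.ne_zero]) hx (by push_cast; linear_combination e)))
    (H := positiveClasses {p}) (classHom_mem_positive hS (Nat.cast_pos.2 hp.out.pos)
      fun x y hx e => pos_of_equation hx (Nat.cast_pos.2 hp.out.pos) (Or.inl le_rfl) e)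
    (H' := AddSubgroup.zmultiples (classOf (dualPrimes p) (-4 * (p : ℚ))))
    (fun P => by
      rcases P with _ | ⟨x, y, h⟩
      · rw [← Affine.Point.zero_def, map_zero]
        exact zero_mem _
      show classFun _ _ _ (.some x y h) ∈ _
      by_cases z : x = 0
      · subst z
        rw [classFun_some_zero, show (0 : ℚ) ^ 2 - 4 * p = -4 * p by ring]
        exact AddSubgroup.mem_zmultiples _
      · rw [classFun_some_of_ne z]
        rcases classOf_dual h8 h2 z (y := y) (by linear_combination twoCurve_equation.1 h.1) with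
          e | e <;> rw [e]
        · exact zero_mem _
        · exact AddSubgroup.mem_zmultiples _)
  have := (Nat.pow_le_pow_iff_right (a := 2) one_lt_two).1 (hbound.trans
    ((Nat.mul_le_mul (card_positiveClasses_le {p}) (card_zmultiples_le _)).trans_eq
      (by rw [Finset.card_singleton]; rfl : 2 ^ ({p} : Finset ℕ).card * 2 = 2 ^ 2)))
  omega

end FA.LindReichardt

end
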