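import Fermat.Agent.Root.SummarySquareForms
import Mathlib.NumberTheory.LegendreSymbol.QuadraticReciprocity
import Mathlib.NumberTheory.PythagoreanTriples
import Mathlib.NumberTheory.SumTwoSquares

/-!
# The quartics of Lind and Reichardt have no rational point

Let `p ≡ 1 (mod 8)` be a prime modulo which `2` is no fourth power. An odd prime dividing `w` in
`2 w² = ± (z⁴ - p e⁴)` is a square modulo `p` by reciprocity, so `w` is one and `2` would be a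
fourth power. For `w² + z⁴ = 4 p e⁴` write `p = a² + b²`: then `b ≡ 4 (mod 8)` and the descent on
the Pythagorean triple behind it gives `2 z² ≡ 4 (mod 8)`.
-/

set_option autoImplicit false
set_option linter.style.haveILetI false

namespace FA.LindReichardt

variable {p : ℕ} [hp : Fact p.Prime]

/-- An integer all of whose prime factors are squares modulo `p ≡ 1 (mod 4)` is a square. -/
theorem isSquare_intCast (h4 : p % 4 = 1) {w : ℤ}
    (h : ∀ q : ℕ, q.Prime → (q : ℤ) ∣ w → IsSquare (q : ZMod p)) : IsSquare (w : ZMod p) := by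
  have hn : ∀ n : ℕ, (∀ q : ℕ, q.Prime → q ∣ n → IsSquare (q : ZMod p)) →
      IsSquare (n : ZMod p) := fun n => by
    induction n using Nat.recOnMul with
    | zero => exact fun _ => by rw [Nat.cast_zero]; exact IsSquare.zero
    | one => exact fun _ => by rw [Nat.cast_one]; exact IsSquare.one
    | prime q hq => exact fun hd => hd q hq dvd_rfl
    | mul a b ha hb =>
      intro hd
      rw [Nat.cast_mul]
      exact (ha fun q hq hqa => hd q hq (hqa.mul_right b)).mul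
        (hb fun q hq hqb => hd q hq (hqb.mul_left a))
  have hw := hn w.natAbs fun q hq hqw => h q hq (Int.natCast_dvd.2 hqw)
  have hneg : IsSquare (-1 : ZMod p) := ZMod.exists_sq_eq_neg_one_iff.2 (by omega)
  rcases Int.natAbs_eq w with e | e <;> rw [e]
  · rwa [Int.cast_natCast]
  · rw [Int.cast_neg, Int.cast_natCast, ← neg_one_mul]
    exact hneg.mul hw

/-- `-1` is a fourth power modulo `p ≡ 1 (mod 8)`. -/
theorem exists_fourth_root_neg_one (h8 : p % 8 = 1) : ∃ c : ZMod p, c ^ 4 = -1 := by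
  obtain ⟨j, hj⟩ := (ZMod.exists_sq_eq_neg_one_iff (p := p)).2 (by omega)
  have hj0 : j ≠ 0 := fun e => by simp [e] at hj
  obtain ⟨c, hc⟩ := (ZMod.euler_criterion p hj0).2 (by
    rw [show p / 2 = 2 * (p / 4) by omega, pow_mul, sq, ← hj]
    exact Even.neg_one_pow ⟨p / 8, by omega⟩)
  exact ⟨c, by rw [show c ^ 4 = (c * c) * (c * c) by ring, ← hc, ← hj]⟩

/-- **`2 w² = ± (z⁴ - p e⁴)` has no solution.** -/
theorem two_mul_sq_ne (h8 : p % 8 = 1) (h2 : ¬ ∃ x : ZMod p, x ^ 4 = 2) {s z w e : ℤ}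
    (hs : s = 1 ∨ s = -1) (hco : IsCoprime z e) : 2 * w ^ 2 ≠ s * (z ^ 4 - p * e ^ 4) := by
  intro h
  have hpI : Prime (p : ℤ) := Nat.prime_iff_prime_int.1 hp.out
  have hs2 : s * s = 1 := by rcases hs with rfl | rfl <;> rfl
  have notboth : ∀ {q : ℤ}, Prime q → q ∣ z → q ∣ e → False := fun hq h1 h2 =>
    hq.not_isUnit (hco.isUnit_of_dvd' h1 h2)
  have hp2 : ¬ (p : ℤ) ∣ 2 := fun hd => by
    have := Nat.le_of_dvd two_pos (Int.natCast_dvd_natCast.1 hd)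
    have := hp.out.two_le
    omega
  have hpz : ¬ (p : ℤ) ∣ z := fun hd => by
    have h1 : (p : ℤ) ∣ w ^ 2 := (hpI.dvd_or_dvd (⟨s * (z ^ 3 * (z / p) - e ^ 4), by
      linear_combination h - s * z ^ 3 * (Int.ediv_mul_cancel hd)⟩ :
        (p : ℤ) ∣ 2 * w ^ 2)).resolve_left hp2
    have h2 : (p : ℤ) ^ 2 ∣ (p : ℤ) * e ^ 4 := by
      rw [show (p : ℤ) * e ^ 4 = z ^ 4 - s * (2 * w ^ 2) by
        linear_combination s * h + (z ^ 4 - (p : ℤ) * e ^ 4) * hs2]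
      exact dvd_sub ((pow_dvd_pow_of_dvd hd 2).trans (pow_dvd_pow z (by norm_num)))
        (dvd_mul_of_dvd_right (dvd_mul_of_dvd_right
          (pow_dvd_pow_of_dvd (hpI.dvd_of_dvd_pow h1) 2) 2) s)
    rw [sq] at h2
    exact notboth hpI hd
      (hpI.dvd_of_dvd_pow ((mul_dvd_mul_iff_left hpI.ne_zero).1 h2))
  have hw : IsSquare (w : ZMod p) := isSquare_intCast (by omega) fun q hq hqw => by
    haveI := Fact.mk hq
    rcases eq_or_ne q 2 with rfl | hq2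
    · exact (ZMod.exists_sq_eq_two_iff (by omega)).2 (Or.inl h8)
    rw [ZMod.exists_sq_eq_prime_iff_of_mod_four_eq_one (by omega) hq2]
    have hqI : Prime (q : ℤ) := Nat.prime_iff_prime_int.1 hq
    have hd : (q : ℤ) ∣ z ^ 4 - (p : ℤ) * e ^ 4 := by
      rw [show z ^ 4 - (p : ℤ) * e ^ 4 = s * (2 * w ^ 2) by
        linear_combination -s * h - (z ^ 4 - (p : ℤ) * e ^ 4) * hs2]
      exact dvd_mul_of_dvd_right (dvd_mul_of_dvd_right (dvd_pow hqw two_ne_zero) 2) s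
    have he : (e : ZMod q) ≠ 0 := fun e0 => by
      have hqe := (ZMod.intCast_zmod_eq_zero_iff_dvd e q).1 e0
      have h4 := dvd_add hd (dvd_mul_of_dvd_right (dvd_pow hqe four_ne_zero) (p : ℤ))
      rw [sub_add_cancel] at h4
      exact notboth hqI (hqI.dvd_of_dvd_pow h4) hqe
    have hd' := (ZMod.intCast_zmod_eq_zero_iff_dvd _ q).2 hd
    push_cast at hd'
    refine ⟨(z : ZMod q) ^ 2 / (e : ZMod q) ^ 2, ?_⟩
    field_simp
    linear_combination -hd'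
  obtain ⟨k, hk⟩ := hw
  have hmod := congrArg (Int.cast : ℤ → ZMod p) h
  push_cast at hmod
  rw [ZMod.natCast_self, zero_mul, sub_zero, hk] at hmod
  have hk0 : k ≠ 0 := fun e0 => hpz ((ZMod.intCast_zmod_eq_zero_iff_dvd z p).1 (by
    have hs0 : (s : ZMod p) ≠ 0 := by rcases hs with rfl | rfl <;> simp
    rw [e0] at hmod
    exact pow_eq_zero_iff four_ne_zero |>.1
      ((mul_eq_zero.1 (by linear_combination -hmod)).resolve_left hs0)))
  rcases hs with rfl | rfl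
  · refine h2 ⟨(z : ZMod p) / k, ?_⟩
    push_cast at hmod
    field_simp
    linear_combination -hmod
  · obtain ⟨c, hc⟩ := exists_fourth_root_neg_one h8
    refine h2 ⟨c * (z : ZMod p) / k, ?_⟩
    push_cast at hmod
    field_simp
    linear_combination (z : ZMod p) ^ 4 * hc - hmod

/-- The even leg of a primitive triple with square hypotenuse is divisible by eight. -/
theorem eight_dvd_leg {u v e : ℤ} (h : u ^ 2 + v ^ 2 = e ^ 4) (hco : Int.gcd u v = 1)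
    (hu : u % 2 = 1) (he : e % 2 = 1) : (8 : ℤ) ∣ v := by
  have he0 : 0 < e ^ 2 := by
    have : e ≠ 0 := by omega
    positivity
  obtain ⟨m, n, -, hv, hz, -, hpar, -⟩ := PythagoreanTriple.coprime_classification'
    (show PythagoreanTriple u v (e ^ 2) by
      show u * u + v * v = e ^ 2 * e ^ 2
      linear_combination h) hco hu he0
  have key : ∀ m n : ℤ, e ^ 2 = m ^ 2 + n ^ 2 → m % 2 = 1 → n % 2 = 0 → (4 : ℤ) ∣ n := by
    intro m n hmn hm hn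
    obtain ⟨i, rfl⟩ : ∃ i, m = 2 * i + 1 := ⟨m / 2, by omega⟩
    obtain ⟨j, rfl⟩ : ∃ j, n = 2 * j := ⟨n / 2, by omega⟩
    obtain ⟨l, rfl⟩ : ∃ l, e = 2 * l + 1 := ⟨e / 2, by omega⟩
    obtain ⟨i', hi⟩ : (2 : ℤ) ∣ i * (i + 1) := (Int.even_mul_succ_self i).two_dvd
    obtain ⟨l', hl⟩ : (2 : ℤ) ∣ l * (l + 1) := (Int.even_mul_succ_self l).two_dvd
    have hj4 : 4 * j ^ 2 = 4 * (2 * (l' - i')) := by linear_combination -hmn + 4 * hl - 4 * hi
    have hj : (2 : ℤ) ∣ j ^ 2 := ⟨l' - i', by linarith⟩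
    obtain ⟨t, ht⟩ := Int.prime_two.dvd_of_dvd_pow hj
    exact ⟨t, by rw [ht]; ring⟩
  rw [hv]
  rcases hpar with ⟨hm, hn⟩ | ⟨hm, hn⟩
  · obtain ⟨t, ht⟩ := key n m (by linear_combination hz) hn hm
    exact ⟨t * n, by rw [ht]; ring⟩
  · obtain ⟨t, ht⟩ := key m n hz hm hn
    exact ⟨t * m, by rw [ht]; ring⟩

/-- `p = a² + b²` with `a` odd and `b ≡ 4 (mod 8)`. -/
theorem exists_two_squares (h8 : p % 8 = 1) (h2 : ¬ ∃ x : ZMod p, x ^ 4 = 2) :
    ∃ a b : ℤ, (p : ℤ) = a ^ 2 + b ^ 2 ∧ a % 2 = 1 ∧ b % 8 = 4 := by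
  obtain ⟨a₀, b₀, h₀⟩ := Nat.Prime.sq_add_sq (p := p) (by omega)
  have hz : (p : ℤ) = (a₀ : ℤ) ^ 2 + (b₀ : ℤ) ^ 2 := by exact_mod_cast h₀.symm
  have hmod : ∀ x y : ℤ, (p : ℤ) = x ^ 2 + y ^ 2 → y % 2 = 0 → x % 2 = 1 ∧ y % 8 = 4 := by
    intro x y hxy hy
    obtain ⟨j, rfl⟩ : ∃ j, y = 2 * j := ⟨y / 2, by omega⟩
    rcases Int.even_or_odd x with ⟨i, rfl⟩ | ⟨i, rfl⟩
    · exfalso; ring_nf at hxy; omega
    refine ⟨by omega, ?_⟩
    obtain ⟨i', hi⟩ : (2 : ℤ) ∣ i * (i + 1) := (Int.even_mul_succ_self i).two_dvd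
    rcases Int.even_or_odd j with ⟨t, rfl⟩ | ⟨t, rfl⟩
    · rcases Int.even_or_odd t with ⟨r, rfl⟩ | ⟨r, rfl⟩
      · exact absurd ((FA.Summary.two_biquadratic_residue p hp.out (by omega)).2
          ⟨2 * i + 1, r, by rw [hxy]; ring⟩) h2
      · omega
    · exfalso
      obtain ⟨t', ht⟩ : (2 : ℤ) ∣ t * (t + 1) := (Int.even_mul_succ_self t).two_dvd
      have h8' : (p : ℤ) = 8 * (i' + 4 * t') + 5 := by
        linear_combination hxy + 4 * hi + 16 * ht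
      omega
  rcases Int.even_or_odd (b₀ : ℤ) with hb | hb
  · exact ⟨_, _, hz, hmod _ _ hz (Int.even_iff.1 hb)⟩
  · refine ⟨_, _, hz.trans (add_comm _ _), hmod _ _ (hz.trans (add_comm _ _)) ?_⟩
    rcases Int.even_or_odd (a₀ : ℤ) with ⟨i, hi⟩ | ⟨i, hi⟩
    · omega
    · exfalso
      obtain ⟨j, hj⟩ := hb
      rw [hi, hj] at hz
      ring_nf at hz
      omega

/-- **`w² + z⁴ = 4 p e⁴` has no solution.** -/
theorem sq_add_ne (h8 : p % 8 = 1) (h2 : ¬ ∃ x : ZMod p, x ^ 4 = 2) {z w e : ℤ}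
    (hco : IsCoprime z e) : w ^ 2 + z ^ 4 ≠ 4 * p * e ^ 4 := by
  intro h
  have hpI : Prime (p : ℤ) := Nat.prime_iff_prime_int.1 hp.out
  have even4 : ∀ a b : ZMod 4, a ^ 2 + b ^ 4 = 0 → 2 * a = 0 ∧ 2 * b = 0 := by decide
  obtain ⟨hw2, hz2⟩ := even4 (w : ZMod 4) (z : ZMod 4) (by
    have := congrArg (Int.cast : ℤ → ZMod 4) h
    push_cast at this
    rw [this, show (4 : ZMod 4) = 0 from rfl, zero_mul, zero_mul])
  have half : ∀ x : ℤ, 2 * (x : ZMod 4) = 0 → (2 : ℤ) ∣ x := fun x hx => by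
    have h' : ((4 : ℕ) : ℤ) ∣ 2 * x :=
      (ZMod.intCast_zmod_eq_zero_iff_dvd _ 4).1 (by push_cast; exact hx)
    omega
  obtain ⟨w₁, rfl⟩ := half w hw2
  obtain ⟨z₁, rfl⟩ := half z hz2
  have h1 : w₁ ^ 2 + 4 * z₁ ^ 4 = p * e ^ 4 := by linarith
  have hco1 : IsCoprime z₁ e := (IsCoprime.mul_left_iff.1 hco).2
  have he : e % 2 = 1 := by
    by_contra he
    exact Int.prime_two.not_isUnit
      (hco.isUnit_of_dvd' (dvd_mul_right _ _) (Int.dvd_of_emod_eq_zero (by omega)))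
  obtain ⟨a, b₀, hab₀, ha, hb₀⟩ := exists_two_squares h8 h2
  obtain ⟨b, v, hab, hb, hv⟩ : ∃ b v : ℤ, (p : ℤ) = a ^ 2 + b ^ 2 ∧ b % 8 = 4 ∧
      2 * a * z₁ ^ 2 - b * w₁ = p * v := by
    have hd : (p : ℤ) ∣ (2 * a * z₁ ^ 2 - b₀ * w₁) * (2 * a * z₁ ^ 2 - -b₀ * w₁) :=
      ⟨a ^ 2 * e ^ 4 - w₁ ^ 2, by linear_combination w₁ ^ 2 * hab₀ + a ^ 2 * h1⟩
    rcases hpI.dvd_or_dvd hd with ⟨v, hv⟩ | ⟨v, hv⟩
    · exact ⟨b₀, v, hab₀, hb₀, hv⟩
    · exact ⟨-b₀, v, by rw [neg_sq]; exact hab₀, by omega, hv⟩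
  have hpa : ¬ (p : ℤ) ∣ a := fun hd => by
    have h1 : (p : ℤ) ^ 2 ∣ a ^ 2 := pow_dvd_pow_of_dvd hd 2
    have := Int.le_of_dvd (by have : a ≠ 0 := by omega
                              positivity) h1
    nlinarith [sq_nonneg b, hp.out.two_le]
  obtain ⟨u, hu⟩ : (p : ℤ) ∣ a * w₁ + 2 * b * z₁ ^ 2 := (hpI.dvd_or_dvd
    (⟨w₁ + b * v, by linear_combination -w₁ * hab + b * hv⟩ :
      (p : ℤ) ∣ a * (a * w₁ + 2 * b * z₁ ^ 2))).resolve_left hpa
  have hp0 : (p : ℤ) ≠ 0 := hpI.ne_zero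
  have hnorm : u ^ 2 + v ^ 2 = e ^ 4 := mul_left_cancel₀ (mul_ne_zero hp0 hp0) (by
    linear_combination (p : ℤ) * h1 - (a * w₁ + 2 * b * z₁ ^ 2 + p * u) * hu -
      (2 * a * z₁ ^ 2 - b * w₁ + p * v) * hv - (w₁ ^ 2 + 4 * z₁ ^ 4) * hab)
  have h2z : 2 * z₁ ^ 2 = a * v + b * u := mul_left_cancel₀ hp0 (by
    linear_combination a * hv + b * hu + 2 * z₁ ^ 2 * hab)
  have hw1 : w₁ = a * u - b * v := mul_left_cancel₀ hp0 (by
    linear_combination a * hu - b * hv + w₁ * hab)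
  have hgcd : Int.gcd u v = 1 := by
    by_contra hne
    obtain ⟨q, hq, hqd⟩ := Nat.exists_prime_and_dvd hne
    have hqI : Prime (q : ℤ) := Nat.prime_iff_prime_int.1 hq
    have hqu : (q : ℤ) ∣ u := (Int.natCast_dvd_natCast.2 hqd).trans (Int.gcd_dvd_left _ _)
    have hqv : (q : ℤ) ∣ v := (Int.natCast_dvd_natCast.2 hqd).trans (Int.gcd_dvd_right _ _)
    have hqe : (q : ℤ) ∣ e := hqI.dvd_of_dvd_pow (n := 4)
      (hnorm ▸ dvd_add (dvd_pow hqu two_ne_zero) (dvd_pow hqv two_ne_zero))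
    rcases hqI.dvd_or_dvd (h2z ▸ dvd_add (dvd_mul_of_dvd_right hqv a)
        (dvd_mul_of_dvd_right hqu b) : (q : ℤ) ∣ 2 * z₁ ^ 2) with h' | h'
    · have hq2 := (Nat.prime_dvd_prime_iff_eq hq Nat.prime_two).1 (Int.natCast_dvd_natCast.1 h')
      subst hq2
      obtain ⟨t, rfl⟩ := hqe
      omega
    · exact hqI.not_isUnit (hco1.isUnit_of_dvd' (hqI.dvd_of_dvd_pow h') hqe)
  obtain ⟨i, rfl⟩ : ∃ i, a = 2 * i + 1 := ⟨a / 2, by omega⟩
  obtain ⟨j, rfl⟩ : ∃ j, b = 8 * j + 4 := ⟨b / 8, by omega⟩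
  rcases Int.even_or_odd u with ⟨k, rfl⟩ | ⟨k, rfl⟩
  · rcases Int.even_or_odd v with ⟨l, rfl⟩ | ⟨l, rfl⟩
    · have : (2 : ℤ) ∣ e ^ 4 := ⟨2 * k ^ 2 + 2 * l ^ 2, by linear_combination -hnorm⟩
      have := Int.prime_two.dvd_of_dvd_pow this
      omega
    · ring_nf at h2z; omega
  · obtain ⟨l, rfl⟩ := eight_dvd_leg hnorm hgcd (by omega) he
    have hz1 : z₁ ^ 2 = 4 * ((2 * i + 1) * l + j * (2 * k + 1) + k) + 2 := by linarith
    rcases Int.even_or_odd z₁ with ⟨r, rfl⟩ | ⟨r, rfl⟩ <;> ring_nf at hz1 <;> omega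

end FA.LindReichardt
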