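import Fermat.Agent.CM.Count
import Mathlib.FieldTheory.Finite.Basic
import Mathlib.NumberTheory.LegendreSymbol.QuadraticReciprocity
import Mathlib.NumberTheory.Padics.Hensel
import Mathlib.NumberTheory.Padics.RingHoms
import Mathlib.Analysis.Real.Sqrt

/-!
# `2 w² = z⁴ - p` has points in every completion

Modulo an odd prime `q ≠ p` there is a solution: by a count of conics for `q ≡ 3 (mod 4)`, by the
bound `4 q` on the squares of the Jacobsthal sums for `q ≡ 1 (mod 4)`; modulo `p` because `2` is a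
square. Hensel's lemma lifts all of them, and gives square roots in `ℚ_2`.
-/

set_option autoImplicit false
set_option linter.style.haveILetI false

noncomputable section

open Polynomial

namespace FA.LindReichardt

/-- For `q ≡ 3 (mod 4)` the curve `d w² = z⁴ - c` has a point. -/
theorem exists_point_three {F : Type*} [Field F] [Fintype F] (h3 : Fintype.card F % 4 = 3) {d : F}
    (hd : d ≠ 0) (c : F) : ∃ z w : F, d * w ^ 2 = z ^ 4 - c := by
  have hF : ringChar F ≠ 2 := fun h => by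
    have := FiniteField.even_card_of_char_two h
    omega
  obtain ⟨a, b, hab⟩ := FiniteField.exists_root_sum_quadratic
    (f := X ^ 2 - C c) (g := C (-d) * X ^ 2) (by rw [degree_X_pow_sub_C two_pos]; rfl)
    (by rw [degree_C_mul_X_pow 2 (neg_ne_zero.2 hd)]; rfl) (by omega)
  simp only [eval_sub, eval_pow, eval_X, eval_C, eval_mul] at hab
  have hneg : ¬ IsSquare (-1 : F) := fun h => (FiniteField.isSquare_neg_one_iff.1 h) h3
  obtain ⟨z, hz⟩ : ∃ z : F, z ^ 4 = a ^ 2 := by
    by_cases ha : IsSquare a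
    · obtain ⟨z, rfl⟩ := ha
      exact ⟨z, by ring⟩
    · classical
      have hn : quadraticChar F (-a) = 1 := by
        rw [← neg_one_mul, map_mul, quadraticChar_neg_one_iff_not_isSquare.2 hneg,
          quadraticChar_neg_one_iff_not_isSquare.2 ha]
        rfl
      obtain ⟨z, hz⟩ := (quadraticChar_one_iff_isSquare
        (neg_ne_zero.2 fun h0 => ha (by rw [h0]; exact IsSquare.zero))).1 hn
      exact ⟨z, by rw [show z ^ 4 = (z * z) ^ 2 by ring, ← hz, neg_sq]⟩
  exact ⟨z, b, by linear_combination hab.symm - hz⟩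

/-- For `q ≡ 1 (mod 4)`, `q ≥ 7`, the curve `d w² = z⁴ - c` has a point. -/
theorem exists_point_one {F : Type*} [Field F] [Fintype F] [DecidableEq F]
    (h1 : Fintype.card F % 4 = 1) (h7 : 7 ≤ Fintype.card F) {d c : F} (hd : d ≠ 0) (hc : c ≠ 0) :
    ∃ z w : F, d * w ^ 2 = z ^ 4 - c := by
  by_contra hno
  push Not at hno
  have hF : ringChar F ≠ 2 := fun h => by
    have := FiniteField.even_card_of_char_two h
    omega
  have h2 : (2 : F) ≠ 0 := Ring.two_ne_zero hF
  set χ := quadraticChar F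
  have hval : ∀ z : F, χ (z ^ 4 - c) = -χ d := fun z => by
    have hne : (z ^ 4 - c) / d ≠ 0 := fun h =>
      hno z 0 (by rw [(div_eq_zero_iff.1 h).resolve_right hd]; simp)
    have : χ ((z ^ 4 - c) / d) = -1 := quadraticChar_neg_one_iff_not_isSquare.2 fun ⟨w, hw⟩ =>
      hno z w (by rw [sq, ← hw]; field_simp)
    rw [← div_mul_cancel₀ (z ^ 4 - c) hd, map_mul, this, neg_one_mul]
  have hsum : ∑ z : F, χ (z ^ 4 - c) = -1 + FA.CM.jacobsthal c := by
    have hsq : ∑ z : F, χ (z ^ 4 - c) = ∑ y : F, (χ y + 1) * χ (y ^ 2 - c) := by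
      rw [← Finset.sum_fiberwise (s := Finset.univ) (g := fun z : F => z ^ 2)
        (f := fun z => χ (z ^ 4 - c))]
      refine Finset.sum_congr rfl fun y _ => ?_
      rw [Finset.sum_congr rfl fun z hz => by
        rw [show z ^ 4 = y ^ 2 by rw [← (Finset.mem_filter.1 hz).2]; ring],
        Finset.sum_const, nsmul_eq_mul]
      congr 1
      rw [← quadraticChar_card_sqrts hF y]
      simp
    have hbase : ∑ y : F, χ (y ^ 2 - c) = -1 := by
      have e : ∀ y : F, χ (y ^ 2 - c) = χ ((-y - 0) * (-y - 0) - c) := fun y => by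
        congr 1; ring
      obtain ⟨k, hk⟩ | hns := em (IsSquare c)
      · have hk0 : k ≠ 0 := fun h => hc (by rw [hk, h, zero_mul])
        have hkk : k ≠ -k := fun h => hk0
          ((Ring.eq_self_iff_eq_zero_of_char_ne_two hF).1 h.symm)
        have := FA.CM.sum_char_shift hF k (-k)
        rw [if_neg hkk, zero_sub] at this
        rw [← this]
        refine Finset.sum_congr rfl fun y _ => ?_
        congr 1
        rw [hk]; ring
      · have h1 := Finset.sum_add_distrib (s := (Finset.univ : Finset F))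
          (f := fun _ => (1 : ℤ)) (g := fun y => χ (y ^ 2 - c))
        have h0 : ∑ y : F, (1 + χ (y ^ 2 - c)) = (Fintype.card F : ℤ) - 1 := by
          have hfib : ∀ y : F, 1 + χ (y ^ 2 - c) =
              ((Finset.univ.filter fun x : F => x ^ 2 = y ^ 2 - c).card : ℤ) := fun y => by
            rw [add_comm, ← quadraticChar_card_sqrts hF]
            simp
          rw [Finset.sum_congr rfl fun y _ => hfib y, ← Nat.cast_sum, ← Finset.card_sigma]
          have hcard : (Finset.univ.sigma fun y : F =>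
              Finset.univ.filter fun x : F => x ^ 2 = y ^ 2 - c).card =
              (Finset.univ.erase (0 : F)).card := by
            refine Finset.card_bij' (fun s _ => s.1 - s.2)
              (fun u _ => ⟨(u + c / u) / 2, (c / u - u) / 2⟩) (fun s hs => ?_) (fun u hu => ?_)
              (fun s hs => ?_) fun u hu => ?_
            · have e := (Finset.mem_filter.1 (Finset.mem_sigma.1 hs).2).2
              refine Finset.mem_erase.2 ⟨fun h => hc ?_, Finset.mem_univ _⟩
              linear_combination e + (s.1 + s.2) * h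
            · have hu0 := Finset.ne_of_mem_erase hu
              simp only [Finset.mem_sigma, Finset.mem_univ, Finset.mem_filter, true_and]
              field_simp
              ring
            · have e := (Finset.mem_filter.1 (Finset.mem_sigma.1 hs).2).2
              have hd : s.1 - s.2 ≠ 0 := fun h => hc (by linear_combination e + (s.1 + s.2) * h)
              have hcd : c / (s.1 - s.2) = s.1 + s.2 := by
                rw [div_eq_iff hd]; linear_combination e
              obtain ⟨y, x⟩ := s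
              simp only at hcd ⊢
              rw [hcd]
              congr 1 <;> field_simp <;> ring
            · have hu0 := Finset.ne_of_mem_erase hu
              field_simp
              ring
          rw [hcard, Finset.card_erase_of_mem (Finset.mem_univ _), Finset.card_univ,
            Nat.cast_sub (Fintype.card_pos), Nat.cast_one]
        rw [h1, Finset.sum_const, Finset.card_univ, nsmul_eq_mul, mul_one] at h0
        linarith
    rw [hsq, FA.CM.jacobsthal, ← hbase, ← Finset.sum_add_distrib]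
    refine Finset.sum_congr rfl fun y _ => ?_
    rw [show y ^ 3 - c * y = y * (y ^ 2 - c) by ring, map_mul]
    ring
  rw [Finset.sum_congr rfl fun z _ => hval z, Finset.sum_const, Finset.card_univ,
    nsmul_eq_mul] at hsum
  obtain ⟨n, hn⟩ := quadraticChar_exists_neg_one hF
  have hneg : χ (-1) = 1 := (quadraticChar_one_iff_isSquare (neg_ne_zero.2 one_ne_zero)).2
    (FiniteField.isSquare_neg_one_iff.2 (by omega))
  have hadd := FA.CM.jacobsthal_sq_add hF hneg hn
  have hle : FA.CM.jacobsthal c ^ 2 ≤ 4 * (Fintype.card F : ℤ) := by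
    rcases quadraticChar_dichotomy hc with h | h
    · obtain ⟨d, rfl⟩ := (quadraticChar_one_iff_isSquare hc).1 h
      rw [show d * d = d ^ 2 * (1 : F) by ring,
        FA.CM.jacobsthal_sq_mul 1 (left_ne_zero_of_mul hc)]
      nlinarith [sq_nonneg (FA.CM.jacobsthal n)]
    · have := FA.CM.jacobsthal_sq_add hF hneg h
      nlinarith [sq_nonneg (FA.CM.jacobsthal (1 : F))]
  have hq : (7 : ℤ) ≤ Fintype.card F := by exact_mod_cast h7
  rcases quadraticChar_dichotomy hd with h | h <;> simp only [χ, h] at hsum <;> nlinarith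

/-- The case of `𝔽_5`. -/
theorem exists_point_five : ∀ d c : ZMod 5, d ≠ 0 → c ≠ 0 → (d = 2 ∨ ∃ r, c = r * r) →
    ∃ z w : ZMod 5, d * w ^ 2 = z ^ 4 - c := by
  decide

/-- The curve has a point over every prime field of odd order other than `p`. -/
theorem exists_point_zmod (q : ℕ) [hq : Fact q.Prime] (hq2 : q ≠ 2) {d c : ZMod q} (hd : d ≠ 0)
    (hc : c ≠ 0) (h5 : d = 2 ∨ IsSquare c) :
    ∃ z w : ZMod q, d * w ^ 2 = z ^ 4 - c := by
  have h2 := hq.out.eq_two_or_odd.resolve_left hq2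
  by_cases hq5 : q = 5
  · subst hq5
    exact exists_point_five d c hd hc h5
  rcases (by omega : q % 4 = 3 ∨ q % 4 = 1) with h | h
  · exact exists_point_three (by rw [ZMod.card]; exact h) hd c
  · refine exists_point_one (by rw [ZMod.card]; exact h) ?_ hd hc
    rw [ZMod.card]
    have := hq.out.two_le
    omega

/-- **Hensel's lemma** for a simple root modulo `q`. -/
theorem exists_root {q : ℕ} [Fact q.Prime] {F : Polynomial ℤ_[q]} {a : ℤ} {m n : ℤ}
    (hm : F.aeval (a : ℤ_[q]) = m) (hn : F.derivative.aeval (a : ℤ_[q]) = n)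
    (h0 : (m : ZMod q) = 0) (h1 : (n : ZMod q) ≠ 0) : ∃ z : ℤ_[q], F.aeval z = 0 := by
  have hu : ‖(n : ℤ_[q])‖ = 1 := le_antisymm (PadicInt.norm_le_one _) (le_of_not_gt fun h => h1
    ((ZMod.intCast_zmod_eq_zero_iff_dvd n q).2 (PadicInt.norm_int_lt_one_iff_dvd n |>.1 h)))
  obtain ⟨z, hz, -⟩ := hensels_lemma (F := F) (a := (a : ℤ_[q])) (by
    rw [hm, hn, hu, one_pow, PadicInt.norm_int_lt_one_iff_dvd]
    exact (ZMod.intCast_zmod_eq_zero_iff_dvd m q).1 h0)
  exact ⟨z, hz⟩

/-- A simple point modulo `q` lifts. -/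
theorem exists_lift {q : ℕ} [hq : Fact q.Prime] (hq2 : q ≠ 2) (d c : ℤ) {z w : ZMod q}
    (h : (d : ZMod q) * w ^ 2 = z ^ 4 - (c : ZMod q))
    (hne : z ≠ 0 ∨ (d : ZMod q) * w ≠ 0) :
    ∃ Z W : ℚ_[q], (d : ℚ_[q]) * W ^ 2 = Z ^ 4 - (c : ℚ_[q]) := by
  have h2 : (2 : ZMod q) ≠ 0 := fun h0 => by
    have := (ZMod.natCast_eq_zero_iff 2 q).1 (by exact_mod_cast h0)
    exact hq2 ((Nat.prime_dvd_prime_iff_eq hq.out Nat.prime_two).1 this)
  obtain ⟨a, rfl⟩ := ZMod.intCast_surjective z
  obtain ⟨b, rfl⟩ := ZMod.intCast_surjective w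
  by_cases hb : (d : ZMod q) * (b : ZMod q) = 0
  · have ha := hne.resolve_right (not_not.2 hb)
    obtain ⟨Z, hZ⟩ := exists_root (q := q) (F := X ^ 4 - C ((c : ℤ_[q]))) (a := a)
      (m := a ^ 4 - c) (n := 4 * a ^ 3) (by simp) (by simp; norm_num)
      (by push_cast; rw [← h, sq, ← mul_assoc, hb, zero_mul])
      (by
        push_cast
        rw [show (4 : ZMod q) = 2 * 2 by norm_num]
        exact mul_ne_zero (mul_ne_zero h2 h2) (pow_ne_zero 3 ha))
    refine ⟨(Z : ℚ_[q]), 0, ?_⟩
    simp at hZ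
    have := congrArg (fun x : ℤ_[q] => (x : ℚ_[q])) hZ
    push_cast at this
    linear_combination -this
  · obtain ⟨W, hW⟩ := exists_root (q := q)
      (F := C (d : ℤ_[q]) * X ^ 2 - C ((a : ℤ_[q]) ^ 4 - c)) (a := b)
      (m := d * b ^ 2 - (a ^ 4 - c)) (n := 2 * (d * b)) (by simp)
      (by simp [derivative_pow]; ring)
      (by push_cast; linear_combination h) (by push_cast; exact mul_ne_zero h2 hb)
    refine ⟨((a : ℤ_[q]) : ℚ_[q]), (W : ℚ_[q]), ?_⟩
    simp at hW
    have := congrArg (PadicInt.Coe.ringHom (p := q)) hW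
    simp only [map_sub, map_mul, map_pow, map_zero, map_intCast] at this
    push_cast
    exact sub_eq_zero.1 this

/-- An integer `≡ 1 (mod 8)` is a square in `ℤ_2`. -/
theorem exists_sqrt_two_adic {u : ℤ_[2]} {k : ℤ_[2]} (hu : u = 1 + 8 * k) :
    ∃ s t : ℤ_[2], s ^ 2 = u ∧ s = 1 + 4 * t := by
  have hn : ‖(2 : ℤ_[2])‖ = 2⁻¹ := by simpa using PadicInt.norm_p (p := 2)
  obtain ⟨s, hs, hclose, -⟩ := hensels_lemma (F := (X ^ 2 - C u : ℤ_[2][X])) (a := (1 : ℤ_[2])) (by
    simp only [map_sub, map_pow, aeval_X, aeval_C, Algebra.algebraMap_self, RingHom.id_apply,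
      derivative_X_pow, derivative_C, map_mul, map_natCast, hu]
    rw [show (1 : ℤ_[2]) ^ 2 - (1 + 8 * k) = -(2 ^ 3 * k) by ring, norm_neg, norm_mul, norm_pow,
      show ((2 : ℕ) : ℤ_[2]) = 2 by norm_num]
    simp only [Nat.add_one_sub_one, pow_one, mul_one, map_zero, sub_zero, hn]
    calc ((2 : ℝ)⁻¹) ^ 3 * ‖k‖ ≤ (2⁻¹ : ℝ) ^ 3 * 1 := by
          gcongr; exact PadicInt.norm_le_one k
      _ < _ := by norm_num)
  simp only [map_sub, map_pow, aeval_X, aeval_C, Algebra.algebraMap_self, RingHom.id_apply,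
    sub_eq_zero] at hs
  obtain ⟨t, ht⟩ : (2 : ℤ_[2]) ^ 2 ∣ s - 1 := by
    have hd : (aeval (1 : ℤ_[2])) (derivative (X ^ 2 - C u : ℤ_[2][X])) = 2 := by
      simp
      norm_num
    rw [hd, hn] at hclose
    have := (PadicInt.norm_le_pow_iff_mem_span_pow (s - 1) 2).1 (by
      have hlt : ‖s - 1‖ < (2 : ℝ) ^ (-1 : ℤ) := by simpa using hclose
      have := (PadicInt.norm_lt_pow_iff_norm_le_pow_sub_one (s - 1) (-1)).1 (by exact_mod_cast hlt)
      exact_mod_cast this)
    simpa [Ideal.mem_span_singleton] using this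
  exact ⟨s, t, hs, by linear_combination ht⟩

/-- A point over `ℚ_2`. -/
theorem exists_point_two (p : ℕ) (h8 : p % 8 = 1) :
    ∃ Z W : ℚ_[2], 2 * W ^ 2 = Z ^ 4 - (p : ℚ_[2]) := by
  obtain ⟨d, k, hd, hu⟩ : ∃ d k : ℕ, (d = 0 ∨ d = 2) ∧ p + 2 * d ^ 2 = 1 + 16 * k := by
    rcases (by omega : p % 16 = 1 ∨ p % 16 = 9) with h | h
    · exact ⟨0, p / 16, Or.inl rfl, by omega⟩
    · exact ⟨2, p / 16 + 1, Or.inr rfl, by omega⟩
  obtain ⟨s, t, hs, hst⟩ := exists_sqrt_two_adic (u := ((1 + 16 * k : ℕ) : ℤ_[2]))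
    (k := 2 * (k : ℤ_[2])) (by push_cast; ring)
  -- one of `± s` is `1` modulo `8`
  obtain ⟨s', t', hs', hst'⟩ : ∃ s' t' : ℤ_[2], s' ^ 2 = ((1 + 16 * k : ℕ) : ℤ_[2]) ∧
      s' = 1 + 8 * t' := by
    have h16 : (8 : ℤ_[2]) * (t + 2 * t ^ 2) = 16 * k := by
      rw [hst] at hs
      push_cast at hs
      linear_combination hs
    have ht : (t + 2 * t ^ 2) = 2 * (k : ℤ_[2]) :=
      mul_left_cancel₀ (by norm_num : (8 : ℤ_[2]) ≠ 0) (by linear_combination h16)
    exact ⟨s, k - t ^ 2, hs, by rw [hst]; linear_combination 4 * ht⟩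
  obtain ⟨Z, -, hZ, -⟩ := exists_sqrt_two_adic (u := s') hst'
  refine ⟨(Z : ℚ_[2]), (d : ℚ_[2]), ?_⟩
  have h := congrArg (PadicInt.Coe.ringHom (p := 2))
    (show Z ^ 4 = (p : ℤ_[2]) + 2 * (d : ℤ_[2]) ^ 2 by
    rw [show Z ^ 4 = (Z ^ 2) ^ 2 by ring, hZ, hs', ← hu]
    push_cast
    rfl)
  simp only [map_add, map_mul, map_pow, map_ofNat, map_natCast] at h
  have h' : (Z : ℚ_[2]) ^ 4 = (p : ℚ_[2]) + 2 * (d : ℚ_[2]) ^ 2 := h
  linear_combination -h'

/-- **Points everywhere locally.** -/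
theorem exists_point_local {p : ℕ} (hp : p.Prime) (h8 : p % 8 = 1) (q : ℕ) [hq : Fact q.Prime] :
    ∃ Z W : ℚ_[q], 2 * W ^ 2 = Z ^ 4 - (p : ℚ_[q]) := by
  rcases eq_or_ne q 2 with rfl | hq2
  · exact exists_point_two p h8
  by_cases hqp : q = p
  · subst hqp
    obtain ⟨r, hr⟩ := (ZMod.exists_sq_eq_two_iff hq2).2 (Or.inl h8)
    have hr0 : r ≠ 0 := fun h => by
      rw [h, mul_zero] at hr
      have := Nat.le_of_dvd two_pos ((ZMod.natCast_eq_zero_iff 2 q).1 (by exact_mod_cast hr))
      have := hq.out.two_le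
      omega
    simpa using exists_lift hq2 2 (q : ℤ) (z := 1) (w := 1 / r)
      (by push_cast; rw [ZMod.natCast_self]; field_simp; linear_combination hr)
      (Or.inl one_ne_zero)
  · have hc : (p : ZMod q) ≠ 0 := fun h => hqp
      ((Nat.prime_dvd_prime_iff_eq hq.out hp).1 ((ZMod.natCast_eq_zero_iff p q).1 h))
    have h2 : (2 : ZMod q) ≠ 0 := Ring.two_ne_zero (by rwa [ZMod.ringChar_zmod_n])
    obtain ⟨z, w, h⟩ := exists_point_zmod q hq2 h2 hc (Or.inl rfl)
    have hne : z ≠ 0 ∨ ((2 : ℤ) : ZMod q) * w ≠ 0 := by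
      by_contra hne
      push Not at hne
      have hw := (mul_eq_zero.1 hne.2).resolve_left (by push_cast; exact h2)
      exact hc (by rw [hne.1, hw] at h; linear_combination h)
    simpa using exists_lift hq2 2 (p : ℤ) (by push_cast; exact h) hne

/-- A real point. -/
theorem exists_point_real (p : ℕ) : ∃ z w : ℝ, 2 * w ^ 2 = z ^ 4 - (p : ℝ) := by
  refine ⟨(p : ℝ) + 1, √((((p : ℝ) + 1) ^ 4 - p) / 2), ?_⟩
  have h : (0 : ℝ) ≤ p := Nat.cast_nonneg p
  rw [Real.sq_sqrt (by nlinarith [sq_nonneg ((p : ℝ) ^ 2), pow_nonneg h 3])]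
  ring

end FA.LindReichardt

end
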